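/-
S55 / 32c-SECOND-INEQ-INST (helper5): model-free halves of (V1) `hgen` and (V2) `hunit`.
-/
import Mathlib
import Fermat.Agent.S55.ClassGen5

set_option autoImplicit false

open IsDedekindDomain IsDedekindDomain.HeightOneSpectrum NumberField

namespace Fermat.Agent.S55.SecondInst5.Prep

noncomputable section

/-! ### `(H : Hᵖ)` as a relative index -/

/-- For a subgroup `H` of a commutative group, the relative index of `Hᵖ` (image of `H` under the
`p`-th power map) in `H` is the order of `H / Hᵖ` computed inside `H`. -/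
theorem relIndex_map_pow_eq_card {G : Type*} [CommGroup G] (H : Subgroup G) (p : ℕ) :
    (H.map (powMonoidHom p : G →* G)).relIndex H =
      Nat.card (↥H ⧸ (powMonoidHom p : ↥H →* ↥H).range) := by
  rw [Subgroup.relIndex, Subgroup.index]
  congr 2
  ext ⟨x, hx⟩
  simp only [Subgroup.mem_subgroupOf, Subgroup.mem_map, powMonoidHom_apply, MonoidHom.mem_range,
    Subtype.exists]
  constructor
  · rintro ⟨c, hc, hcx⟩
    exact ⟨c, hc, Subtype.ext hcx⟩
  · rintro ⟨c, hc, hcx⟩
    exact ⟨c, hc, congrArg Subtype.val hcx⟩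

/-! ### The class-group step over a finite set of primes of `𝓞 K` -/

variable (K : Type*) [Field K] [NumberField K]

/-- The primes of `𝓞 K` above a rational prime form a finite set. -/
theorem finite_setOf_above (ℓ : Nat.Primes) :
    {P : HeightOneSpectrum (𝓞 K) | (((ℓ : ℕ) : ℕ) : 𝓞 K) ∈ P.asIdeal}.Finite := by
  have h0 : Ideal.span {(((ℓ : ℕ) : ℕ) : 𝓞 K)} ≠ 0 := by
    rw [Ne, Ideal.zero_eq_bot, Ideal.span_singleton_eq_bot]
    exact_mod_cast ℓ.2.ne_zero
  refine (Ideal.finite_factors h0).subset ?_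
  intro P hP
  change P.asIdeal ∣ _
  rw [Ideal.dvd_span_singleton]
  exact hP

/-- **(V1), prime-set form.** For every finite set `S₁` of primes of `𝓞 K` there is a finite
`S₀ ⊇ S₁` such that every finitely supported divisor is, outside `S₀`, the divisor of an element
of `Kˣ`; the same then holds for every `S ⊇ S₀`. -/
theorem exists_finset_gen (S₁ : Finset (HeightOneSpectrum (𝓞 K))) :
    ∃ S₀ : Finset (HeightOneSpectrum (𝓞 K)), S₁ ⊆ S₀ ∧
      ∀ S : Finset (HeightOneSpectrum (𝓞 K)), S₀ ⊆ S →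
        ∀ n : HeightOneSpectrum (𝓞 K) →₀ ℤ, ∃ x : Kˣ,
          ∀ P : HeightOneSpectrum (𝓞 K), P ∉ S →
            P.valuation K (x : K) = WithZero.exp (-(n P)) := by
  classical
  obtain ⟨T, -, hT⟩ := ClassGen5.exists_finset_trivial_class K ∅
  have hfin : ∀ ℓ ∈ T, {P : HeightOneSpectrum (𝓞 K) | (((ℓ : ℕ) : ℕ) : 𝓞 K) ∈ P.asIdeal}.Finite :=
    fun ℓ _ => finite_setOf_above K ℓ
  let S₀ : Finset (HeightOneSpectrum (𝓞 K)) :=
    S₁ ∪ T.attach.biUnion (fun ℓ => (hfin ℓ.1 ℓ.2).toFinset)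
  refine ⟨S₀, Finset.subset_union_left, fun S hS n => ?_⟩
  obtain ⟨x, hx⟩ := hT n
  refine ⟨x, fun P hP => hx P fun ℓ hℓ hmem => hP (hS ?_)⟩
  apply Finset.mem_union_right
  rw [Finset.mem_biUnion]
  exact ⟨⟨ℓ, hℓ⟩, Finset.mem_attach _ _, (Set.Finite.mem_toFinset _).2 hmem⟩

end

end Fermat.Agent.S55.SecondInst5.Prep
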