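/-
S55 / 32c-SECOND-INEQ-INST (helper5): (V1) `hgen` and (V2) `hunit` of
`SecondIneq74.relIndex_sup_dvd`, for ANY place model of the form
`V = HeightOneSpectrum (𝓞 K) ⊕ D` (finite places of Mathlib + a finite type `D` of dummy
archimedean places) in which, at the finite places, `ι v x ∈ U v ↔ v(x) = 1`.
-/
import Mathlib
import Fermat.Agent.S55.SecondInst5.Prep
import Fermat.Agent.S55.SecondIneq74.Core
import Fermat.Agent.S55.S2Count92.SUnitPow

set_option autoImplicit false

open IsDedekindDomain IsDedekindDomain.HeightOneSpectrum NumberField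

namespace Fermat.Agent.S55.SecondInst5.Adapters

noncomputable section

open Fermat.Agent.S55.SecondIneq74

variable {K : Type*} [Field K] [NumberField K] {D : Type*}
variable (A : HeightOneSpectrum (𝓞 K) ⊕ D → Type*) [∀ v, CommGroup (A v)]
variable (ι : ∀ v, Kˣ →* A v) (U : ∀ v, Subgroup (A v))

open Classical in
/-- the finite part of a finite set of places -/
def finPart (T : Finset (HeightOneSpectrum (𝓞 K) ⊕ D)) :
    Finset (HeightOneSpectrum (𝓞 K)) :=
  T.preimage Sum.inl (Sum.inl_injective.injOn)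

omit [NumberField K] in
theorem mem_finPart
    {T : Finset (HeightOneSpectrum (𝓞 K) ⊕ D)} {P : HeightOneSpectrum (𝓞 K)} :
    P ∈ finPart T ↔ Sum.inl P ∈ T := by
  simp [finPart]

/-- **(V2), T-units.** If all dummy places lie in `T` and `ι v x ∈ U v ↔ v(x) = 1` at the finite
places, the `T`-units of the place model are Mathlib's `T_fin`-units. -/
theorem sUnits_eq
    (hU : ∀ (P : HeightOneSpectrum (𝓞 K)) (x : Kˣ),
      ι (Sum.inl P) x ∈ U (Sum.inl P) ↔ P.valuation K (x : K) = 1)
    (T : Finset (HeightOneSpectrum (𝓞 K) ⊕ D)) (hT : ∀ d : D, Sum.inr d ∈ T) :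
    sUnits A ι U T = SUnit19.SUnitRank.sUnits K (finPart T) := by
  ext x
  rw [mem_sUnits]
  constructor
  · intro h P hP
    have hP' : Sum.inl P ∉ T := fun h' => hP (by exact_mod_cast (mem_finPart.2 h'))
    exact (hU P x).1 (h _ hP')
  · intro h v hv
    rcases v with P | d
    · refine (hU P x).2 (h P ?_)
      intro hP
      exact hv (mem_finPart.1 (by exact_mod_cast hP))
    · exact absurd (hT d) hv

omit [NumberField K] in
/-- cardinality of a finite set of places containing all the dummy places -/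
theorem card_eq [Fintype D]
    (T : Finset (HeightOneSpectrum (𝓞 K) ⊕ D)) (hT : ∀ d : D, Sum.inr d ∈ T) :
    T.card = (finPart T).card + Fintype.card D := by
  classical
  have hT' : T = (finPart T).map ⟨Sum.inl, Sum.inl_injective⟩ ∪
      (Finset.univ : Finset D).map ⟨Sum.inr, Sum.inr_injective⟩ := by
    ext v
    rcases v with P | d
    · simp [mem_finPart]
    · simp [hT d]
  have hdisj : Disjoint ((finPart T).map ⟨Sum.inl, Sum.inl_injective⟩)
      ((Finset.univ : Finset D).map ⟨Sum.inr, Sum.inr_injective⟩) := by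
    rw [Finset.disjoint_left]
    intro v hv hv'
    simp only [Finset.mem_map, Function.Embedding.coeFn_mk] at hv hv'
    obtain ⟨P, -, rfl⟩ := hv
    obtain ⟨d, -, hd⟩ := hv'
    exact Sum.inr_ne_inl hd
  conv_lhs => rw [hT']
  rw [Finset.card_union_of_disjoint hdisj, Finset.card_map, Finset.card_map, Finset.card_univ]

/-- **(V2) `hunit` of `SecondIneq74.relIndex_sup_dvd`**: `(E_T : E_Tᵖ) = p ^ #T` for every finite
`T ⊇ S`, when `μ_p ⊆ K` (`p` odd), `S` contains the `r₂` dummy places and the model has the right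
units at the finite places. -/
theorem hunit [Fintype D] {p : ℕ} [Fact p.Prime] (hp2 : p ≠ 2) {ζ : K} (hζ : IsPrimitiveRoot ζ p)
    (hD : Fintype.card D = InfinitePlace.nrComplexPlaces K)
    (hU : ∀ (P : HeightOneSpectrum (𝓞 K)) (x : Kˣ),
      ι (Sum.inl P) x ∈ U (Sum.inl P) ↔ P.valuation K (x : K) = 1)
    (S : Finset (HeightOneSpectrum (𝓞 K) ⊕ D)) (hS : ∀ d : D, Sum.inr d ∈ S) :
    ∀ T : Finset (HeightOneSpectrum (𝓞 K) ⊕ D), S ⊆ T →
      ((sUnits A ι U T).map (powMonoidHom p)).relIndex (sUnits A ι U T) = p ^ T.card := by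
  classical
  intro T hST
  have hT : ∀ d : D, Sum.inr d ∈ T := fun d => hST (hS d)
  rw [sUnits_eq A ι U hU T hT, card_eq T hT, hD]
  exact S2Count92.relIndex_map_pow_sUnits_eq_pow_nrComplexPlaces (finPart T) hp2 hζ

/-- **(V1) `hgen` of `SecondIneq74.relIndex_sup_dvd`**: there is a finite set `S₀` of primes such
that for every finite set `S` of places containing `S₀` and the dummy places, every idele is a
unit outside `S` up to a principal idele.  Needed from the model: at every finite place `P` a
homomorphism `ord P : A P → ℤ` with kernel `U P` which restricts to the `P`-adic valuation of `Kˣ`. -/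
theorem hgen
    (ord : ∀ P : HeightOneSpectrum (𝓞 K), A (Sum.inl P) →* Multiplicative ℤ)
    (hord : ∀ (P : HeightOneSpectrum (𝓞 K)) (a : A (Sum.inl P)),
      a ∈ U (Sum.inl P) ↔ ord P a = 1)
    (hι : ∀ (P : HeightOneSpectrum (𝓞 K)) (x : Kˣ),
      ord P (ι (Sum.inl P) x) = P.valuationOfNeZero x)
    (S₁ : Finset (HeightOneSpectrum (𝓞 K))) :
    ∃ S₀ : Finset (HeightOneSpectrum (𝓞 K)), S₁ ⊆ S₀ ∧
      ∀ S : Finset (HeightOneSpectrum (𝓞 K) ⊕ D), (∀ P ∈ S₀, Sum.inl P ∈ S) →
        (∀ d : D, Sum.inr d ∈ S) →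
        ∀ y ∈ idele A U, ∃ x : Kˣ, ∀ v, v ∉ S → y v * ι v x ∈ U v := by
  classical
  obtain ⟨S₀, hS₁, hS₀⟩ := Prep.exists_finset_gen K S₁
  refine ⟨S₀, hS₁, fun S hS hSD y hy => ?_⟩
  -- the divisor of `y` outside `S`
  have hfin : {v | y v ∉ U v}.Finite := hy
  let supp : Finset (HeightOneSpectrum (𝓞 K)) :=
    (hfin.toFinset).preimage Sum.inl (Sum.inl_injective.injOn)
  let n : HeightOneSpectrum (𝓞 K) →₀ ℤ :=
    Finsupp.onFinset supp
      (fun P => if Sum.inl P ∈ S then 0 else Multiplicative.toAdd (ord P (y (Sum.inl P))))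
      (by
        intro P hP
        by_cases hPS : Sum.inl P ∈ S
        · simp [hPS] at hP
        · simp only [hPS, if_false] at hP
          simp only [supp, Finset.mem_preimage, Set.Finite.mem_toFinset, Set.mem_ofPred_eq]
          intro hmem
          apply hP
          rw [(hord P _).1 hmem]; rfl)
  obtain ⟨x, hx⟩ := hS₀ (finPart S) (fun P hP => mem_finPart.2 (hS P hP)) n
  refine ⟨x, fun v hv => ?_⟩
  rcases v with P | d
  · have hP : P ∉ finPart S := fun h => hv (mem_finPart.1 h)
    have h1 := hx P hP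
    rw [hord, map_mul, hι]
    have hn : n P = Multiplicative.toAdd (ord P (y (Sum.inl P))) := by
      simp only [n, Finsupp.onFinset_apply, hv, if_false]
    -- `valuationOfNeZero x = ofAdd (- n P)`
    have h2 : P.valuationOfNeZero x = Multiplicative.ofAdd (-(n P)) := by
      have h3 : ((P.valuationOfNeZero x : Multiplicative ℤ) : WithZero (Multiplicative ℤ)) =
          WithZero.exp (-(n P)) := by
        rw [valuationOfNeZero_eq]; exact h1
      exact WithZero.coe_injective h3
    rw [h2, hn]
    apply Multiplicative.toAdd.injective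
    simp
  · exact absurd (hSD d) hv

end

end Fermat.Agent.S55.SecondInst5.Adapters
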