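/-
S55 / 32c-SECOND-INEQ-INST (helper5): (V1) `hgen` and (V2) `hunit` of
`SecondIneq74.relIndex_sup_dvd` for helper53's place model `SecondInst53.PlaceModel`
(`V K = HeightOneSpectrum (𝓞 K) ⊕ InfinitePlace K`, `A v = (K_v)ˣ`, dummy infinite places),
together with the density of `σ_v K` in `K_v`.
-/
import Mathlib
import Fermat.Agent.S55.SecondInst5.Adapters
import Fermat.Agent.S55.SecondInst53.PlaceModel

set_option autoImplicit false

open IsDedekindDomain IsDedekindDomain.HeightOneSpectrum NumberField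

namespace Fermat.Agent.S55.SecondInst5.PlaceInst

noncomputable section

open Fermat.Agent.S55.SecondIneq74 Fermat.Agent.S55.SecondInst53.PlaceModel

/-! ### Density of the image of a ring homomorphism in the local field it generates -/

section Density

variable {q : ℕ} [Fact q.Prime] {K : Type*} [Field K] (σ : K →+* PadicAlgCl q)

theorem adjoin_range_toSubmodule :
    Subalgebra.toSubmodule (IntermediateField.adjoin ℚ_[q] (Set.range σ)).toSubalgebra =
      Submodule.span ℚ_[q] (Set.range σ) := by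
  rw [IntermediateField.adjoin_toSubalgebra, Algebra.adjoin_eq_span]
  congr 1
  have : Set.range σ = ((MonoidHom.mrange (σ : K →* PadicAlgCl q) : Submonoid (PadicAlgCl q)) :
      Set (PadicAlgCl q)) := by
    ext y
    simp
  rw [this, Submonoid.closure_eq]

/-- **Density**: every element of `ℚ_q(σ K)` is a limit of elements of `σ K`. -/
theorem exists_norm_sub_lt {y : PadicAlgCl q}
    (hy : y ∈ IntermediateField.adjoin ℚ_[q] (Set.range σ)) {ε : ℝ} (hε : 0 < ε) :
    ∃ x : K, ‖y - σ x‖ < ε := by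
  have hy' : y ∈ Submodule.span ℚ_[q] (Set.range σ) := by
    rw [← adjoin_range_toSubmodule]; exact hy
  clear hy
  induction hy' using Submodule.span_induction generalizing ε with
  | mem y hy =>
    obtain ⟨x, rfl⟩ := hy
    exact ⟨x, by simpa using hε⟩
  | zero => exact ⟨0, by simpa using hε⟩
  | add y z _ _ hy hz =>
    obtain ⟨x, hx⟩ := hy (half_pos hε)
    obtain ⟨x', hx'⟩ := hz (half_pos hε)
    refine ⟨x + x', ?_⟩
    have : y + z - σ (x + x') = (y - σ x) + (z - σ x') := by
      rw [map_add]; ring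
    rw [this]
    exact (norm_add_le _ _).trans_lt (by linarith)
  | smul c y _ hy =>
    have hc1 : 0 < ‖c‖ + 1 := by positivity
    obtain ⟨x, hx⟩ := hy (div_pos (half_pos hε) hc1)
    have hx1 : 0 < ‖σ x‖ + 1 := by positivity
    obtain ⟨a, ha⟩ := Metric.denseRange_iff.mp (Padic.denseRange_ratCast q) c
      (ε / 2 / (‖σ x‖ + 1)) (div_pos (half_pos hε) hx1)
    have : CharZero K := (RingHom.charZero_iff σ.injective).2 inferInstance
    refine ⟨(a : K) * x, ?_⟩
    have hax : σ ((a : K) * x) = ((a : ℚ_[q])) • σ x := by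
      rw [map_mul, map_ratCast, Algebra.smul_def, map_ratCast]
    have : c • y - σ ((a : K) * x) = c • (y - σ x) + (c - (a : ℚ_[q])) • σ x := by
      rw [hax, smul_sub, sub_smul]; abel
    rw [this]
    refine (norm_add_le _ _).trans_lt ?_
    rw [norm_smul, norm_smul]
    have h1 : ‖c‖ * ‖y - σ x‖ < ε / 2 := by
      calc ‖c‖ * ‖y - σ x‖ ≤ (‖c‖ + 1) * ‖y - σ x‖ := by
            apply mul_le_mul_of_nonneg_right _ (norm_nonneg _); linarith
        _ < (‖c‖ + 1) * (ε / 2 / (‖c‖ + 1)) := mul_lt_mul_of_pos_left hx hc1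
        _ = ε / 2 := by field_simp
    have h2 : ‖c - (a : ℚ_[q])‖ * ‖σ x‖ < ε / 2 := by
      rw [dist_eq_norm] at ha
      calc ‖c - (a : ℚ_[q])‖ * ‖σ x‖ ≤ ‖c - (a : ℚ_[q])‖ * (‖σ x‖ + 1) := by
            apply mul_le_mul_of_nonneg_left _ (norm_nonneg _); linarith
        _ < (ε / 2 / (‖σ x‖ + 1)) * (‖σ x‖ + 1) := mul_lt_mul_of_pos_right ha hx1
        _ = ε / 2 := by field_simp
    linarith

/-- Every nonzero element of `ℚ_q(σ K)` has the norm of an element of `σ Kˣ`. -/
theorem exists_norm_eq {y : PadicAlgCl q}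
    (hy : y ∈ IntermediateField.adjoin ℚ_[q] (Set.range σ)) (hy0 : y ≠ 0) :
    ∃ x : Kˣ, ‖σ (x : K)‖ = ‖y‖ := by
  obtain ⟨x, hx⟩ := exists_norm_sub_lt σ hy (norm_pos_iff.mpr hy0)
  have h1 : ‖σ x‖ = ‖y‖ := by
    have h2 : σ x = y + -(y - σ x) := by ring
    have h3 : ‖y‖ ≠ ‖-(y - σ x)‖ := by
      rw [norm_neg]; exact (ne_of_lt hx).symm
    rw [h2, IsUltrametricDist.norm_add_eq_max_of_norm_ne_norm h3, norm_neg]
    exact max_eq_left hx.le
  have hx0 : x ≠ 0 := by
    rintro rfl
    rw [map_zero, norm_zero] at h1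
    exact hy0 (norm_eq_zero.mp h1.symm)
  exact ⟨Units.mk0 x hx0, h1⟩

end Density

variable {K : Type*} [Field K] [NumberField K] (D : PlaceData K)

/-! ### (V2) `hunit` -/

/-- if `K` contains a primitive `p`-th root of unity with `p` odd, all places are complex. -/
theorem card_infinitePlace_eq {p : ℕ} [Fact p.Prime] (hp2 : p ≠ 2) {ζ : K}
    (hζ : IsPrimitiveRoot ζ p) :
    Fintype.card (InfinitePlace K) = InfinitePlace.nrComplexPlaces K := by
  have hp : p.Prime := Fact.out
  have h2 : 2 < p := lt_of_le_of_ne hp.two_le (Ne.symm hp2)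
  have h0 := NumberField.InfinitePlace.IsPrimitiveRoot.nrRealPlaces_eq_zero_of_two_lt h2 hζ
  have h1 := InfinitePlace.card_eq_nrRealPlaces_add_nrComplexPlaces K
  rw [h0, zero_add] at h1
  exact h1

/-- **(V2) `hunit`** of `SecondIneq74.relIndex_sup_dvd` for the place model. -/
theorem hunit {p : ℕ} [Fact p.Prime] (hp2 : p ≠ 2) {ζ : K} (hζ : IsPrimitiveRoot ζ p)
    (S : Finset (V K)) (hS : ∀ w : InfinitePlace K, Sum.inr w ∈ S) :
    ∀ T : Finset (V K), S ⊆ T →
      ((sUnits (A D) (ι D) (U D) T).map (powMonoidHom p)).relIndex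
        (sUnits (A D) (ι D) (U D) T) = p ^ T.card :=
  Adapters.hunit (A D) (ι D) (U D) hp2 hζ (card_infinitePlace_eq hp2 hζ)
    (ι_inl_mem_U_iff D) S hS

/-! ### (V1) `hgen` -/

/-- the component of a family at a finite place, as a unit of the local field. -/
def finComp (y : ∀ v, A D v) (P : HeightOneSpectrum (𝓞 K)) : (D.locField P)ˣ := y (Sum.inl P)

theorem finComp_mem_unitBall_iff (y : ∀ v, A D v) (P : HeightOneSpectrum (𝓞 K)) :
    finComp D y P ∈ unitBall D P ↔ y (Sum.inl P) ∈ U D (Sum.inl P) := Iff.rfl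

/-- **(V1) `hgen`** of `SecondIneq74.relIndex_sup_dvd` for the place model: there is a finite set
`S₀ ⊇ S₁` of primes such that for every finite set of places `S` containing `S₀` and the infinite
places, every idele becomes a unit outside `S` after multiplication by a principal idele. -/
theorem hgen (S₁ : Finset (HeightOneSpectrum (𝓞 K))) :
    ∃ S₀ : Finset (HeightOneSpectrum (𝓞 K)), S₁ ⊆ S₀ ∧
      ∀ S : Finset (V K), (∀ P ∈ S₀, Sum.inl P ∈ S) → (∀ w : InfinitePlace K, Sum.inr w ∈ S) →
        ∀ y ∈ idele (A D) (U D), ∃ x : Kˣ, ∀ v, v ∉ S → y v * ι D v x ∈ U D v := by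
  classical
  obtain ⟨S₀, hS₁, hS₀⟩ := Prep.exists_finset_gen K S₁
  refine ⟨S₀, hS₁, fun S hS hSD y hy => ?_⟩
  -- approximate the local components by global elements
  have hz : ∀ P : HeightOneSpectrum (𝓞 K), ∃ z : Kˣ,
      ‖D.σ P (z : K)‖ = ‖(((finComp D y P : (D.locField P)ˣ) : D.locField P) :
        PadicAlgCl (D.ℓ P))‖ := by
    intro P
    have hmem : (((finComp D y P : (D.locField P)ˣ) : D.locField P) : PadicAlgCl (D.ℓ P)) ∈
        IntermediateField.adjoin ℚ_[D.ℓ P] (Set.range (D.σ P)) :=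
      ((finComp D y P : (D.locField P)ˣ) : D.locField P).2
    have hne : (((finComp D y P : (D.locField P)ˣ) : D.locField P) : PadicAlgCl (D.ℓ P)) ≠ 0 := by
      intro h0
      exact (finComp D y P).ne_zero (Subtype.ext h0)
    exact exists_norm_eq (D.σ P) hmem hne
  choose z hz using hz
  -- the divisor
  have hfin : {v | y v ∉ U D v}.Finite := hy
  let supp : Finset (HeightOneSpectrum (𝓞 K)) :=
    (hfin.toFinset).preimage Sum.inl (Sum.inl_injective.injOn)
  let n : HeightOneSpectrum (𝓞 K) →₀ ℤ :=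
    Finsupp.onFinset supp
      (fun P => if Sum.inl P ∈ S then 0 else Multiplicative.toAdd (P.valuationOfNeZero (z P)))
      (by
        intro P hP
        by_cases hPS : Sum.inl P ∈ S
        · simp [hPS] at hP
        · simp only [hPS, if_false] at hP
          simp only [supp, Finset.mem_preimage, Set.Finite.mem_toFinset, Set.mem_ofPred_eq]
          intro hmem
          apply hP
          have h1 : ‖D.σ P (z P : K)‖ = 1 := by
            rw [hz P]; exact hmem
          have h2 : P.valuation K (z P : K) = 1 := (D.eq_one_iff P _).2 h1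
          have h3 : P.valuationOfNeZero (z P) = 1 := by
            apply WithZero.coe_injective
            rw [valuationOfNeZero_eq, h2]; rfl
          rw [h3]; rfl)
  obtain ⟨x, hx⟩ := hS₀ (Adapters.finPart S) (fun P hP => Adapters.mem_finPart.2 (hS P hP)) n
  refine ⟨x, fun v hv => ?_⟩
  rcases v with P | w
  · have hP : P ∉ Adapters.finPart S := fun h => hv (Adapters.mem_finPart.1 h)
    have h1 := hx P hP
    have hn : n P = Multiplicative.toAdd (P.valuationOfNeZero (z P)) := by
      simp only [n, Finsupp.onFinset_apply, hv, if_false]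
    -- `v_P (z_P * x) = 1`
    have h2 : P.valuation K ((z P * x : Kˣ) : K) = 1 := by
      rw [Units.val_mul, map_mul, h1, ← valuationOfNeZero_eq, hn]
      show WithZero.exp (Multiplicative.toAdd (P.valuationOfNeZero (z P))) *
        WithZero.exp (-Multiplicative.toAdd (P.valuationOfNeZero (z P))) = 1
      rw [← WithZero.exp_add, add_neg_cancel, WithZero.exp_zero]
    have h3 : ‖D.σ P ((z P * x : Kˣ) : K)‖ = 1 := (D.eq_one_iff P _).1 h2
    show finComp D y P * ιf D P x ∈ unitBall D P
    rw [mem_unitBall_iff, Units.val_mul, MulMemClass.coe_mul, norm_mul, ← hz P, ιf_coe,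
      ← norm_mul, ← map_mul, ← Units.val_mul]
    exact h3
  · exact absurd (hSD w) hv

end

end Fermat.Agent.S55.SecondInst5.PlaceInst
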