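/-
S55 / 32c-SECOND-INEQ-INST (helper5): (V3) `hprod` of `SecondIneq74.relIndex_sup_dvd` for helper53's
place model `SecondInst53.PlaceModel`:
`∏ v ∈ S, (K_vˣ : K_vˣᵖ) = p ^ (2 * #S)` for every finite set of places `S` containing the
(dummy) infinite places and the places above `p`, when `μ_p ⊆ K` and `p` is odd.

Ingredients: the tame and dummy factors (helper57 `SecondInst57.Tame`), the wild product in
form (helper39 `OrbitHyp39.prod_card_units_quot_pow_over_primes`), transported to the chosen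
embeddings of the place model.
-/
import Mathlib
import Fermat.Agent.S55.SecondInst5.PlaceInst
import Fermat.Agent.S55.SecondInst57.Tame
import Fermat.Agent.S55.OrbitHyp39

set_option autoImplicit false

open IsDedekindDomain IsDedekindDomain.HeightOneSpectrum NumberField Module

namespace Fermat.Agent.S55.SecondInst5.HProd

noncomputable section

open Fermat.Agent.S55.SecondIneq74 Fermat.Agent.S55.SecondInst53.PlaceModel
  Fermat.Agent.S55.LocField17

variable {K : Type*} [Field K] [NumberField K]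

/-! ### two primes with the same valuation ring are equal -/

theorem eq_of_valuation_le_one_iff {v w : HeightOneSpectrum (𝓞 K)}
    (h : ∀ x : K, v.valuation K x ≤ 1 ↔ w.valuation K x ≤ 1) : v = w := by
  by_contra hne
  have hnle : ¬ v.asIdeal ≤ w.asIdeal := by
    intro hle
    have hmax : v.asIdeal.IsMaximal := v.isMaximal
    have := hmax.eq_of_le w.isPrime.ne_top hle
    exact hne (HeightOneSpectrum.ext this)
  obtain ⟨x, hxv, hxw⟩ := Set.not_subset.mp hnle
  have hx0 : (x : K) ≠ 0 := by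
    intro h0
    have : x = 0 := by exact_mod_cast h0
    rw [this] at hxw
    exact hxw w.asIdeal.zero_mem
  have h1 : v.valuation K (x : K) < 1 := (v.valuation_lt_one_iff_mem x).mpr hxv
  have h2 : w.valuation K (x : K) = 1 := by
    refine le_antisymm (w.valuation_le_one x) ?_
    by_contra hlt
    exact hxw ((w.valuation_lt_one_iff_mem x).mp (not_le.mp hlt))
  have h3 : w.valuation K ((x : K)⁻¹) ≤ 1 := by rw [map_inv₀, h2, inv_one]
  have h4 := (h _).mpr h3
  rw [map_inv₀] at h4
  have hv0 : 0 < v.valuation K (x : K) := zero_lt_iff.mpr ((Valuation.ne_zero_iff _).mpr hx0)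
  rw [inv_le_one₀ hv0] at h4
  exact absurd h1 (not_lt.mpr h4)

/-! ### the chosen embedding at a place above `p`, with values in `PadicAlgCl p` -/

variable (D : PlaceData K) (p : ℕ) [hp : Fact p.Prime]

/-- at a place above `p` the residue characteristic is `p`. -/
theorem ℓ_eq {v : HeightOneSpectrum (𝓞 K)} (hv : ((p : ℕ) : 𝓞 K) ∈ v.asIdeal) : D.ℓ v = p := by
  by_contra hne
  have hcop : Nat.Coprime (D.ℓ v) p := (Nat.coprime_primes (D.prime v).out hp.out).mpr hne
  obtain ⟨a, b, hab⟩ := (Nat.isCoprime_iff_coprime.mpr hcop)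
  have h1 : ((a : 𝓞 K) * ((D.ℓ v : ℕ) : 𝓞 K) + (b : 𝓞 K) * ((p : ℕ) : 𝓞 K)) = 1 := by
    have := congrArg (Int.cast : ℤ → 𝓞 K) hab
    push_cast at this
    exact this
  have h2 : (1 : 𝓞 K) ∈ v.asIdeal := by
    rw [← h1]
    exact v.asIdeal.add_mem (v.asIdeal.mul_mem_left _ (D.natCast_mem v))
      (v.asIdeal.mul_mem_left _ hv)
  exact v.isPrime.ne_top ((Ideal.eq_top_iff_one _).mpr h2)

omit [NumberField K] in
/-- transport of an embedding along an equality of primes: same norms, same local index. -/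
theorem exists_transport {ℓ : ℕ} [hℓ : Fact ℓ.Prime] (σ : K →+* PadicAlgCl ℓ) (h : ℓ = p) :
    ∃ σ' : K →+* PadicAlgCl p, (∀ x, ‖σ' x‖ = ‖σ x‖) ∧
      Nat.card ((LocDegSum39.locField p σ')ˣ ⧸
        (powMonoidHom p : (LocDegSum39.locField p σ')ˣ →* (LocDegSum39.locField p σ')ˣ).range) =
      Nat.card (((IntermediateField.adjoin ℚ_[ℓ] (Set.range σ) : LF ℓ))ˣ ⧸
        (powMonoidHom p : ((IntermediateField.adjoin ℚ_[ℓ] (Set.range σ) : LF ℓ))ˣ →*
          ((IntermediateField.adjoin ℚ_[ℓ] (Set.range σ) : LF ℓ))ˣ).range) := by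
  subst h
  exact ⟨σ, fun _ => rfl, rfl⟩

/-- the chosen embedding at a place above `p`, with values in `PadicAlgCl p`. -/
def rep (v : OrbitHyp39.PrimesOver p K) : K →+* PadicAlgCl p :=
  (exists_transport p (D.σ v.1) (ℓ_eq D p v.2)).choose

theorem norm_rep (v : OrbitHyp39.PrimesOver p K) (x : K) : ‖rep D p v x‖ = ‖D.σ v.1 x‖ :=
  (exists_transport p (D.σ v.1) (ℓ_eq D p v.2)).choose_spec.1 x

theorem card_rep (v : OrbitHyp39.PrimesOver p K) :
    Nat.card ((LocDegSum39.locField p (rep D p v))ˣ ⧸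
        (powMonoidHom p : (LocDegSum39.locField p (rep D p v))ˣ →*
          (LocDegSum39.locField p (rep D p v))ˣ).range) =
      (Pw (A D) p (Sum.inl v.1)).index := by
  rw [Subgroup.index_eq_card]
  exact (exists_transport p (D.σ v.1) (ℓ_eq D p v.2)).choose_spec.2

theorem primeOfEmb_rep (v : OrbitHyp39.PrimesOver p K) :
    OrbitHyp39.primeOfEmb p (rep D p v) = v.1 := by
  apply eq_of_valuation_le_one_iff
  intro x
  rw [OrbitHyp39.valuation_primeOfEmb_le_one_iff, norm_rep, D.le_one_iff]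

/-- the wild factors of `hprod`. -/
theorem prod_index_Pw_over_primes [Fintype (OrbitHyp39.PrimesOver p K)] {ζ : K}
    (hζ : IsPrimitiveRoot ζ p) :
    ∏ v : OrbitHyp39.PrimesOver p K, (Pw (A D) p (Sum.inl v.1)).index =
      p ^ (2 * Fintype.card (OrbitHyp39.PrimesOver p K) + finrank ℚ K) := by
  rw [← OrbitHyp39.prod_card_units_quot_pow_over_primes p (rep D p) (primeOfEmb_rep D p) hζ]
  exact Finset.prod_congr rfl (fun v _ => (card_rep D p v).symm)


/-! ### the degree is twice the number of infinite places -/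

theorem finrank_eq_two_mul_card (hp2 : p ≠ 2) {ζ : K} (hζ : IsPrimitiveRoot ζ p) :
    finrank ℚ K = 2 * Fintype.card (InfinitePlace K) := by
  have h2 : 2 < p := lt_of_le_of_ne hp.out.two_le (Ne.symm hp2)
  have h0 := NumberField.InfinitePlace.IsPrimitiveRoot.nrRealPlaces_eq_zero_of_two_lt h2 hζ
  have h1 := InfinitePlace.card_add_two_mul_card_eq_rank K
  rw [h0, zero_add] at h1
  rw [PlaceInst.card_infinitePlace_eq hp2 hζ, h1]

/-! ### (V3) `hprod` -/

/-- **(V3) `hprod`** of `SecondIneq74.relIndex_sup_dvd` for the place model: for a finite set of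
places containing the (dummy) infinite places and the places above `p`,
`∏ v ∈ S, (K_vˣ : K_vˣᵖ) = p ^ (2 * #S)` (`μ_p ⊆ K`, `p` odd). -/
theorem hprod (hp2 : p ≠ 2) {ζ : K} (hζ : IsPrimitiveRoot ζ p) (S : Finset (V K))
    (hinf : ∀ w : InfinitePlace K, Sum.inr w ∈ S)
    (hwild : ∀ v : HeightOneSpectrum (𝓞 K), ((p : ℕ) : 𝓞 K) ∈ v.asIdeal → Sum.inl v ∈ S) :
    ∏ v ∈ S, (Pw (A D) p v).index = p ^ (2 * S.card) := by
  classical
  have : Fintype (OrbitHyp39.PrimesOver p K) := Fintype.ofFinite _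
  have key : S.toLeft.disjSum S.toRight = S := Finset.toLeft_disjSum_toRight
  -- the dummy places
  have hR : S.toRight = Finset.univ := by
    ext w
    simp only [Finset.mem_toRight, Finset.mem_univ, iff_true]
    exact hinf w
  have h1 : ∏ w ∈ S.toRight, (Pw (A D) p (Sum.inr w)).index = 1 :=
    Finset.prod_eq_one (fun w _ => SecondInst57.index_Pw_inr D p w)
  -- the wild places
  have hW : S.toLeft.filter (fun v => ((p : ℕ) : 𝓞 K) ∈ v.asIdeal) =
      (Finset.univ : Finset (OrbitHyp39.PrimesOver p K)).map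
        ⟨Subtype.val, Subtype.val_injective⟩ := by
    ext v
    simp only [Finset.mem_filter, Finset.mem_toLeft, Finset.mem_map, Finset.mem_univ, true_and,
      Function.Embedding.coeFn_mk]
    constructor
    · rintro ⟨-, hv⟩
      exact ⟨⟨v, hv⟩, rfl⟩
    · rintro ⟨w, rfl⟩
      exact ⟨hwild w.1 w.2, w.2⟩
  have h2 : ∏ v ∈ S.toLeft.filter (fun v => ((p : ℕ) : 𝓞 K) ∈ v.asIdeal),
      (Pw (A D) p (Sum.inl v)).index =
        p ^ (2 * (S.toLeft.filter (fun v => ((p : ℕ) : 𝓞 K) ∈ v.asIdeal)).card +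
          finrank ℚ K) := by
    rw [hW, Finset.prod_map, Finset.card_map, Finset.card_univ]
    exact prod_index_Pw_over_primes D p hζ
  -- the tame places
  have h3 : ∏ v ∈ S.toLeft.filter (fun v => ¬ ((p : ℕ) : 𝓞 K) ∈ v.asIdeal),
      (Pw (A D) p (Sum.inl v)).index =
        p ^ (2 * (S.toLeft.filter (fun v => ¬ ((p : ℕ) : 𝓞 K) ∈ v.asIdeal)).card) := by
    rw [Finset.prod_congr rfl (fun v hv => SecondInst57.index_Pw_of_tame D p hζ (Sum.inl v)
      ((inl_mem_tame_iff p v).mpr (Finset.mem_filter.mp hv).2)), Finset.prod_const, ← pow_mul]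
  have hcard : (S.toLeft.filter (fun v => ((p : ℕ) : 𝓞 K) ∈ v.asIdeal)).card +
      (S.toLeft.filter (fun v => ¬ ((p : ℕ) : 𝓞 K) ∈ v.asIdeal)).card = S.toLeft.card :=
    Finset.card_filter_add_card_filter_not _
  have hS : S.toLeft.card + S.toRight.card = S.card := Finset.card_toLeft_add_card_toRight
  rw [hR, Finset.card_univ] at hS
  calc ∏ v ∈ S, (Pw (A D) p v).index
      = ∏ v ∈ S.toLeft.disjSum S.toRight, (Pw (A D) p v).index := by rw [key]
    _ = (∏ v ∈ S.toLeft, (Pw (A D) p (Sum.inl v)).index) *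
          ∏ w ∈ S.toRight, (Pw (A D) p (Sum.inr w)).index := Finset.prod_disjSum _ _ _
    _ = (∏ v ∈ S.toLeft.filter (fun v => ((p : ℕ) : 𝓞 K) ∈ v.asIdeal),
            (Pw (A D) p (Sum.inl v)).index) *
          ∏ v ∈ S.toLeft.filter (fun v => ¬ ((p : ℕ) : 𝓞 K) ∈ v.asIdeal),
            (Pw (A D) p (Sum.inl v)).index := by
        rw [h1, mul_one, Finset.prod_filter_mul_prod_filter_not]
    _ = p ^ (2 * S.card) := by
        rw [h2, h3, ← pow_add, finrank_eq_two_mul_card p hp2 hζ]
        congr 1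
        omega


end

end Fermat.Agent.S55.SecondInst5.HProd
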